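import Mathlib
import Fermat.Agent.S48x.Nebentypus.Main

/-!
# P-S48 (H1): diamond operators on `S_k(Γ₁(M))`  (helper62)

* `slashGamma0 f γ hγ` : the cusp form `f ∣[k] γ` on `Γ₁(M)`, for `γ ∈ Γ₀(M)`;
* `diamRep d ∈ Γ₀(M)` : a chosen matrix with lower right entry `≡ d`, for `d : (ZMod M)ˣ`;
* `diamLin d : CuspForm (Gamma1 M) k →ₗ[ℂ] CuspForm (Gamma1 M) k`, the diamond operator `⟨d⟩`;
* `coe_diamLin_eq` : `⟨d⟩ f = f ∣[k] γ` for EVERY `γ ∈ Γ₀(M)` with lower right entry `≡ d`;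
* `diamLin_one`, `diamLin_mul`, `diamLin_comm`.
-/

set_option autoImplicit false
set_option linter.unusedSectionVars false

namespace Fermat.Agent.S48x.Hecke1

open CongruenceSubgroup Matrix.SpecialLinearGroup UpperHalfPlane
open Fermat.Agent.S48x.Nebentypus
open scoped MatrixGroups ModularForm Manifold

variable {M : ℕ} [NeZero M] {k : ℤ}

/-- `Γ₁(M)`-invariance of a cusp form on `Γ₁(M)`, in the `mapGL` form. -/
theorem slash_Gamma1' (f : CuspForm (Gamma1 M) k) (γ : SL(2, ℤ)) (hγ : γ ∈ Gamma1 M) :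
    (⇑f) ∣[k] (mapGL ℝ γ : GL (Fin 2) ℝ) = ⇑f :=
  SlashInvariantForm.slash_action_eqn f _ (Subgroup.mem_map_of_mem (mapGL ℝ) hγ)

/-- `Γ₁(M)` is normalised by `Γ₀(M)`, on the level of invariant functions. -/
theorem slash_slash_Gamma1 {F : ℍ → ℂ}
    (hF : ∀ γ ∈ Gamma1 M, F ∣[k] (mapGL ℝ γ : GL (Fin 2) ℝ) = F) {σ : SL(2, ℤ)}
    (hσ : σ ∈ Gamma0 M) {γ : SL(2, ℤ)} (hγ : γ ∈ Gamma1 M) :
    (F ∣[k] (mapGL ℝ σ : GL (Fin 2) ℝ)) ∣[k] (mapGL ℝ γ : GL (Fin 2) ℝ) =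
      F ∣[k] (mapGL ℝ σ : GL (Fin 2) ℝ) := by
  rw [← SlashAction.slash_mul, ← map_mul]
  refine slash_eq_of_lowerRight_eq k hF (Subgroup.mul_mem _ hσ (Gamma1_in_Gamma0 M hγ)) hσ ?_
  rw [lowerRight_mul hσ, ((Gamma1_mem M γ).mp hγ).2.1, mul_one]

/-- The cusp form `f ∣[k] γ` on `Γ₁(M)` for `γ ∈ Γ₀(M)`. -/
noncomputable def slashGamma0 (f : CuspForm (Gamma1 M) k) (γ : SL(2, ℤ)) (hγ : γ ∈ Gamma0 M) :
    CuspForm (Gamma1 M) k where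
  toFun := (⇑f) ∣[k] (mapGL ℝ γ : GL (Fin 2) ℝ)
  slash_action_eq' := by
    rintro _ ⟨a, ha, rfl⟩
    exact slash_slash_Gamma1 (slash_Gamma1' f) hγ ha
  holo' := (CuspFormClass.holo f).slash k _
  zero_at_cusps' := by
    intro c hc
    rw [Subgroup.IsArithmetic.isCusp_iff_isCusp_SL2Z] at hc
    rw [OnePoint.isZeroAt_iff_forall_SL2Z hc]
    intro g _
    have h1 : ((⇑f) ∣[k] (mapGL ℝ γ : GL (Fin 2) ℝ)) ∣[k] g = (⇑f) ∣[k] (γ * g) := by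
      show ((⇑f) ∣[k] (mapGL ℝ γ : GL (Fin 2) ℝ)) ∣[k] (mapGL ℝ g : GL (Fin 2) ℝ) =
        (⇑f) ∣[k] (mapGL ℝ (γ * g) : GL (Fin 2) ℝ)
      rw [map_mul, SlashAction.slash_mul]
    rw [h1]
    exact CuspFormClass.zero_at_infty_slash f (γ * g)

@[simp] theorem coe_slashGamma0 (f : CuspForm (Gamma1 M) k) (γ : SL(2, ℤ)) (hγ : γ ∈ Gamma0 M) :
    ⇑(slashGamma0 f γ hγ) = (⇑f) ∣[k] (mapGL ℝ γ : GL (Fin 2) ℝ) := rfl

/-- Two elements of `Γ₀(M)` with the same lower right entry give the same form. -/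
theorem slashGamma0_congr (f : CuspForm (Gamma1 M) k) {γ₁ γ₂ : SL(2, ℤ)} (h₁ : γ₁ ∈ Gamma0 M)
    (h₂ : γ₂ ∈ Gamma0 M) (h : ((γ₁ 1 1 : ℤ) : ZMod M) = ((γ₂ 1 1 : ℤ) : ZMod M)) :
    slashGamma0 f γ₁ h₁ = slashGamma0 f γ₂ h₂ :=
  DFunLike.coe_injective (slash_eq_of_lowerRight_eq k (slash_Gamma1' f) h₁ h₂ h)

/-- Every unit of `ZMod M` is the lower right entry of an element of `Γ₀(M)`. -/
theorem exists_Gamma0_lowerRight (d : (ZMod M)ˣ) :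
    ∃ γ : SL(2, ℤ), γ ∈ Gamma0 M ∧ ((γ 1 1 : ℤ) : ZMod M) = (d : ZMod M) := by
  have hcop : Nat.Coprime (d : ZMod M).val M := ZMod.val_coe_unit_coprime d
  have hcopZ : IsCoprime (((d : ZMod M).val : ℕ) : ℤ) (M : ℤ) := Nat.isCoprime_iff_coprime.mpr hcop
  obtain ⟨a, b, hab⟩ := hcopZ
  -- `a * d₀ + b * M = 1`
  refine ⟨Fermat.Agent.S41.Ihara.Amalgam.mkSL a (-b) (M : ℤ) (((d : ZMod M).val : ℕ) : ℤ)
    (by linarith), ?_, ?_⟩
  · rw [Gamma0_mem]; simp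
  · simp

/-- A chosen element of `Γ₀(M)` with lower right entry `≡ d`. -/
noncomputable def diamRep (d : (ZMod M)ˣ) : SL(2, ℤ) := (exists_Gamma0_lowerRight d).choose

theorem diamRep_mem (d : (ZMod M)ˣ) : diamRep d ∈ Gamma0 M :=
  (exists_Gamma0_lowerRight d).choose_spec.1

theorem diamRep_lowerRight (d : (ZMod M)ˣ) :
    (((diamRep d) 1 1 : ℤ) : ZMod M) = (d : ZMod M) :=
  (exists_Gamma0_lowerRight d).choose_spec.2

/-- The diamond operator `⟨d⟩` on `S_k(Γ₁(M))`. -/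
noncomputable def diamLin (d : (ZMod M)ˣ) : CuspForm (Gamma1 M) k →ₗ[ℂ] CuspForm (Gamma1 M) k where
  toFun f := slashGamma0 f (diamRep d) (diamRep_mem d)
  map_add' f g := DFunLike.coe_injective <| by
    show (⇑(f + g)) ∣[k] (mapGL ℝ (diamRep d) : GL (Fin 2) ℝ) =
      (⇑f) ∣[k] (mapGL ℝ (diamRep d) : GL (Fin 2) ℝ) + (⇑g) ∣[k] (mapGL ℝ (diamRep d) : GL (Fin 2) ℝ)
    show (⇑f + ⇑g) ∣[k] (mapGL ℝ (diamRep d) : GL (Fin 2) ℝ) = _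
    rw [SlashAction.add_slash]
  map_smul' c f := DFunLike.coe_injective <| by
    show (⇑(c • f)) ∣[k] (mapGL ℝ (diamRep d) : GL (Fin 2) ℝ) =
      c • ((⇑f) ∣[k] (mapGL ℝ (diamRep d) : GL (Fin 2) ℝ))
    show (c • ⇑f) ∣[k] (mapGL ℝ (diamRep d) : GL (Fin 2) ℝ) = _
    exact ModularForm.SL_smul_slash k (diamRep d) (⇑f) c

/-- `⟨d⟩ f = f ∣[k] γ` for every `γ ∈ Γ₀(M)` with lower right entry `≡ d`. -/
theorem coe_diamLin_eq (d : (ZMod M)ˣ) (f : CuspForm (Gamma1 M) k) {γ : SL(2, ℤ)}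
    (hγ : γ ∈ Gamma0 M) (hd : ((γ 1 1 : ℤ) : ZMod M) = (d : ZMod M)) :
    ⇑(diamLin d f) = (⇑f) ∣[k] (mapGL ℝ γ : GL (Fin 2) ℝ) :=
  slash_eq_of_lowerRight_eq k (slash_Gamma1' f) (diamRep_mem d) hγ
    ((diamRep_lowerRight d).trans hd.symm)

theorem diamLin_eq_slashGamma0 (d : (ZMod M)ˣ) (f : CuspForm (Gamma1 M) k) {γ : SL(2, ℤ)}
    (hγ : γ ∈ Gamma0 M) (hd : ((γ 1 1 : ℤ) : ZMod M) = (d : ZMod M)) :
    diamLin d f = slashGamma0 f γ hγ :=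
  DFunLike.coe_injective (coe_diamLin_eq d f hγ hd)

theorem diamLin_one : diamLin (k := k) (1 : (ZMod M)ˣ) = LinearMap.id := by
  ext f τ
  have h := coe_diamLin_eq (1 : (ZMod M)ˣ) f (one_mem (Gamma0 M)) (by simp)
  rw [map_one, SlashAction.slash_one] at h
  rw [h, LinearMap.id_apply]

theorem diamLin_mul (d e : (ZMod M)ˣ) :
    diamLin (k := k) (d * e) = diamLin e ∘ₗ diamLin d := by
  ext f τ
  have hmem : diamRep d * diamRep e ∈ Gamma0 M :=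
    Subgroup.mul_mem _ (diamRep_mem d) (diamRep_mem e)
  have h := coe_diamLin_eq (d * e) f hmem (by
    rw [lowerRight_mul (diamRep_mem d), diamRep_lowerRight, diamRep_lowerRight, Units.val_mul])
  rw [h, map_mul, SlashAction.slash_mul]
  rfl

theorem diamLin_comm (d e : (ZMod M)ˣ) :
    Commute (diamLin (k := k) d) (diamLin (k := k) e) := by
  show diamLin d * diamLin e = diamLin e * diamLin d
  rw [Module.End.mul_eq_comp, Module.End.mul_eq_comp, ← diamLin_mul, ← diamLin_mul, mul_comm]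

/-- The unit of `ZMod M` attached to a prime `p ∤ M`. -/
noncomputable def primeUnit {p : ℕ} (hp : p.Prime) (hpM : ¬ p ∣ M) : (ZMod M)ˣ :=
  ZMod.unitOfCoprime p ((Nat.Prime.coprime_iff_not_dvd hp).mpr hpM)

@[simp] theorem coe_primeUnit {p : ℕ} (hp : p.Prime) (hpM : ¬ p ∣ M) :
    ((primeUnit hp hpM : (ZMod M)ˣ) : ZMod M) = (p : ZMod M) :=
  ZMod.coe_unitOfCoprime p _

end Fermat.Agent.S48x.Hecke1
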