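import Mathlib
import Fermat.Prelude.Thm_CuspFormClass_isZeroAt_heckeT
import Fermat.Prelude.Thm_CuspFormClass_isZeroAt_heckeU
import Fermat.Agent.S48x.Hecke1.Diamond

/-!
# P-S48 (H1): the Hecke operators `T_p` on `S_k(Γ₁(M))`, `p ∤ M`  (helper62)

* `twistedHecke_slash_Gamma0` : `T_p` commutes with the slash action of `Γ₀(M)` on
  `Γ₁(M)`-invariant functions;
* `heckeTLin k hp hpM : CuspForm (Gamma1 M) k →ₗ[ℂ] CuspForm (Gamma1 M) k`, with
  `coe_heckeTLin : ⇑(T_p f) = U_p f + (⟨p⟩ f) ∣[k] diag(p, 1)`;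
* `heckeTLin_diamLin_comm` : `T_p ⟨d⟩ = ⟨d⟩ T_p`.
-/

set_option autoImplicit false
set_option linter.unusedSectionVars false

namespace Fermat.Agent.S48x.Hecke1

open P2MW.S_ModularForm_heckeT_slash_eq_self_of_mem_Gamma0.ModularForm.HeckeSlashInvariance
open CongruenceSubgroup Matrix.SpecialLinearGroup UpperHalfPlane
open Fermat.Agent.Gateway.HeckeCoh (coc coc_spec)
open Fermat.Agent.S48x.Nebentypus
open scoped MatrixGroups ModularForm Manifold

section Equivariance

variable (N p : ℕ) [NeZero N] [Fact p.Prime] (hpN : ¬ p ∣ N)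

include hpN in
/-- `T_p` commutes with the slash action of `Γ₀(N)` on `Γ₁(N)`-invariant functions. -/
theorem twistedHecke_slash_Gamma0 (k : ℤ) {σ : SL(2, ℤ)} (hσ : σ ∈ Gamma0 N)
    (hσp : ((σ 1 1 : ℤ) : ZMod N) = (p : ZMod N)) {f : ℍ → ℂ}
    (hf : ∀ γ ∈ Gamma1 N, f ∣[k] (mapGL ℝ γ : GL (Fin 2) ℝ) = f) (g : SL(2, ℤ))
    (hg : g ∈ Gamma0 N) :
    twistedHecke p k σ f ∣[k] (mapGL ℝ g : GL (Fin 2) ℝ) =
      twistedHecke p k σ (f ∣[k] (mapGL ℝ g : GL (Fin 2) ℝ)) := by
  rw [twistedHecke_eq_sum, twistedHecke_eq_sum, SlashAction.sum_slash]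
  calc ∑ x : OnePoint (ZMod p),
        ((f ∣[k] (mapGL ℝ (sRep p σ x) : GL (Fin 2) ℝ)) ∣[k] heckeRep p x) ∣[k]
          (mapGL ℝ g : GL (Fin 2) ℝ)
      = ∑ x : OnePoint (ZMod p),
          ((f ∣[k] (mapGL ℝ g : GL (Fin 2) ℝ)) ∣[k]
            (mapGL ℝ (sRep p σ (redMatrix p g • x)) : GL (Fin 2) ℝ)) ∣[k]
            heckeRep p (redMatrix p g • x) := by
        refine Finset.sum_congr rfl fun x _ => ?_
        have hspec := coc_spec N p hpN x ⟨g, hg⟩
        have hc := coc_lowerRight N p hpN x ⟨g, hg⟩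
        simp only at hspec hc
        rw [← SlashAction.slash_mul, hspec, SlashAction.slash_mul, ← SlashAction.slash_mul k
          (mapGL ℝ (sRep p σ x) : GL (Fin 2) ℝ), ← map_mul, ← SlashAction.slash_mul k
          (mapGL ℝ g : GL (Fin 2) ℝ), ← map_mul]
        congr 1
        refine slash_eq_of_lowerRight_eq k hf
          (Subgroup.mul_mem _ (sRep_mem N p hσ x) (coc N p hpN x ⟨g, hg⟩).2)
          (Subgroup.mul_mem _ hg (sRep_mem N p hσ _)) ?_
        rw [lowerRight_mul (sRep_mem N p hσ x), lowerRight_mul hg]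
        refine (isUnit_delta N p hpN (redMatrix p g • x)).mul_left_injective ?_
        show _ * delta N p (redMatrix p g • x) = _ * delta N p (redMatrix p g • x)
        rw [mul_assoc, hc, mul_assoc, sRep_lowerRight N p hσp, ← mul_assoc,
          sRep_lowerRight N p hσp, mul_comm]
    _ = ∑ x : OnePoint (ZMod p),
          ((f ∣[k] (mapGL ℝ g : GL (Fin 2) ℝ)) ∣[k] (mapGL ℝ (sRep p σ x) : GL (Fin 2) ℝ)) ∣[k]
            heckeRep p x :=
        Equiv.sum_comp (MulAction.toPerm (redMatrix p g))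
          (fun x => ((f ∣[k] (mapGL ℝ g : GL (Fin 2) ℝ)) ∣[k]
            (mapGL ℝ (sRep p σ x) : GL (Fin 2) ℝ)) ∣[k] heckeRep p x)

end Equivariance

section Lin

variable {M : ℕ} [NeZero M]

theorem isZeroAt_neg {c : OnePoint ℝ} {F : ℍ → ℂ} {k : ℤ} (h : OnePoint.IsZeroAt c F k) :
    OnePoint.IsZeroAt c (-F) k := by
  intro g hg
  rw [SlashAction.neg_slash]
  exact (h g hg).neg

theorem twistedHecke_add (p : ℕ) (k : ℤ) (σ : SL(2, ℤ)) (F G : ℍ → ℂ) :
    twistedHecke p k σ (F + G) = twistedHecke p k σ F + twistedHecke p k σ G := by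
  simp only [twistedHecke, ModularForm.heckeU_add, SlashAction.add_slash]
  abel

theorem twistedHecke_smul (p : ℕ) (k : ℤ) (σ : SL(2, ℤ)) (c : ℂ) (F : ℍ → ℂ) :
    twistedHecke p k σ (c • F) = c • twistedHecke p k σ F := by
  have h1 : (c • F) ∣[k] (mapGL ℝ σ : GL (Fin 2) ℝ) = c • (F ∣[k] (mapGL ℝ σ : GL (Fin 2) ℝ)) :=
    ModularForm.SL_smul_slash k σ F c
  rw [twistedHecke, twistedHecke, ModularForm.heckeU_smul, h1, ModularForm.smul_slash,
    ModularForm.σ_heckeDiagMatrix, ContinuousAlgEquiv.refl_apply, smul_add]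

/-- The function `T_p f` in terms of the diamond operator. -/
theorem twistedHecke_diamRep_eq (k : ℤ) {p : ℕ} (hp : p.Prime) (hpM : ¬ p ∣ M)
    (f : CuspForm (Gamma1 M) k) :
    twistedHecke p k (diamRep (primeUnit hp hpM)) ⇑f =
      ModularForm.heckeU k p ⇑f +
        (⇑(diamLin (primeUnit hp hpM) f)) ∣[k] ModularForm.heckeDiagMatrix p := rfl

/-- The Hecke operator `T_p`, `p ∤ M`, on `S_k(Γ₁(M))`. -/
noncomputable def heckeTLin (k : ℤ) {p : ℕ} (hp : p.Prime) (hpM : ¬ p ∣ M) :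
    CuspForm (Gamma1 M) k →ₗ[ℂ] CuspForm (Gamma1 M) k where
  toFun f :=
    { toFun := twistedHecke p k (diamRep (primeUnit hp hpM)) ⇑f
      slash_action_eq' := by
        have : Fact p.Prime := ⟨hp⟩
        rintro _ ⟨a, ha, rfl⟩
        exact twistedHecke_slash_eq M p hpM k (diamRep_mem _)
          ((diamRep_lowerRight _).trans (coe_primeUnit hp hpM)) (slash_Gamma1' f) a ha
      holo' := by
        show MDiff (ModularForm.heckeU k p ⇑f +
          (⇑(diamLin (primeUnit hp hpM) f)) ∣[k] ModularForm.heckeDiagMatrix p)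
        exact (ModularForm.mdifferentiable_heckeU (CuspFormClass.holo f) k p).add
          ((CuspFormClass.holo (diamLin (primeUnit hp hpM) f)).slash k _)
      zero_at_cusps' := by
        intro c hc
        show OnePoint.IsZeroAt c (twistedHecke p k (diamRep (primeUnit hp hpM)) ⇑f) k
        rw [twistedHecke_diamRep_eq]
        refine (CuspFormClass.isZeroAt_heckeU f p hc).add ?_
        have h1 : (⇑(diamLin (primeUnit hp hpM) f)) ∣[k] ModularForm.heckeDiagMatrix p =
            ModularForm.heckeT k p ⇑(diamLin (primeUnit hp hpM) f) +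
              -ModularForm.heckeU k p ⇑(diamLin (primeUnit hp hpM) f) := by
          rw [ModularForm.heckeT_eq_heckeU_add]
          abel
        rw [h1]
        exact (CuspFormClass.isZeroAt_heckeT (diamLin (primeUnit hp hpM) f) p hc).add
          (isZeroAt_neg (CuspFormClass.isZeroAt_heckeU (diamLin (primeUnit hp hpM) f) p hc)) }
  map_add' f g := DFunLike.coe_injective <| by
    show twistedHecke p k _ (⇑f + ⇑g) = twistedHecke p k _ ⇑f + twistedHecke p k _ ⇑g
    exact twistedHecke_add p k _ _ _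
  map_smul' c f := DFunLike.coe_injective <| by
    show twistedHecke p k _ (c • ⇑f) = c • twistedHecke p k _ ⇑f
    exact twistedHecke_smul p k _ c _

theorem coe_heckeTLin (k : ℤ) {p : ℕ} (hp : p.Prime) (hpM : ¬ p ∣ M)
    (f : CuspForm (Gamma1 M) k) :
    ⇑(heckeTLin k hp hpM f) =
      ModularForm.heckeU k p ⇑f +
        (⇑(diamLin (primeUnit hp hpM) f)) ∣[k] ModularForm.heckeDiagMatrix p := rfl

theorem coe_heckeTLin' (k : ℤ) {p : ℕ} (hp : p.Prime) (hpM : ¬ p ∣ M)
    (f : CuspForm (Gamma1 M) k) :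
    ⇑(heckeTLin k hp hpM f) = twistedHecke p k (diamRep (primeUnit hp hpM)) ⇑f := rfl

/-- `T_p` commutes with the diamond operators. -/
theorem heckeTLin_diamLin_comm (k : ℤ) {p : ℕ} (hp : p.Prime) (hpM : ¬ p ∣ M) (d : (ZMod M)ˣ) :
    Commute (heckeTLin (M := M) k hp hpM) (diamLin d) := by
  have : Fact p.Prime := ⟨hp⟩
  show heckeTLin k hp hpM * diamLin d = diamLin d * heckeTLin k hp hpM
  ext f τ
  rw [Module.End.mul_apply, Module.End.mul_apply]
  have h1 : ⇑(diamLin d (heckeTLin k hp hpM f)) =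
      (twistedHecke p k (diamRep (primeUnit hp hpM)) ⇑f) ∣[k]
        (mapGL ℝ (diamRep d) : GL (Fin 2) ℝ) := rfl
  have h2 : ⇑(heckeTLin k hp hpM (diamLin d f)) =
      twistedHecke p k (diamRep (primeUnit hp hpM))
        ((⇑f) ∣[k] (mapGL ℝ (diamRep d) : GL (Fin 2) ℝ)) := rfl
  rw [h1, h2, twistedHecke_slash_Gamma0 M p hpM k (diamRep_mem _)
    ((diamRep_lowerRight _).trans (coe_primeUnit hp hpM)) (slash_Gamma1' f) _ (diamRep_mem d)]

end Lin

end Fermat.Agent.S48x.Hecke1
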