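import Mathlib
import Fermat.Agent.S48x.Hecke1.Operator

/-!
# P-S48 (H1): `q`-expansion of `T_p` on `S_k(Γ₁(M))` and commutativity  (helper62)

* `qCoeff_heckeTLin` : `a_n(T_p f) = a_{np}(f) + [p ∣ n] p^{k-1} a_{n/p}(⟨p⟩ f)`;
* `heckeTLin_comm` : `T_p T_q = T_q T_p`.
-/

set_option autoImplicit false
set_option linter.unusedSectionVars false

namespace Fermat.Agent.S48x.Hecke1

open CongruenceSubgroup Matrix.SpecialLinearGroup UpperHalfPlane
open Fermat.Agent.S48x.Nebentypus
open scoped MatrixGroups ModularForm Manifold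

variable {M : ℕ} [NeZero M] {k : ℤ}

/-- Cusp forms on `Γ₁(M)` have a good `q`-expansion (any weight). -/
theorem nice_cuspForm' (f : CuspForm (Gamma1 M) k) : Nice (⇑f) where
  per := by
    have := SlashInvariantFormClass.periodic_comp_ofComplex f
      (one_mem_strictPeriods_Gamma1 (N := M))
    simpa using this
  hol := ModularFormClass.holo f
  bdd := ModularFormClass.bdd_at_infty f

/-- Two cusp forms on `Γ₁(M)` with the same `q`-expansion coefficients are equal. -/
theorem cuspForm_ext_qCoeff {f g : CuspForm (Gamma1 M) k}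
    (h : ∀ n, ModularFormClass.qCoeff f n = ModularFormClass.qCoeff g n) : f = g :=
  DFunLike.coe_injective (Nice.ext_qCoeff (nice_cuspForm' f) (nice_cuspForm' g) h)

/-- **`q`-expansion of `T_p`** on `S_k(Γ₁(M))`, in the shape of `ModularForm.coeffHeckeT`. -/
theorem qCoeff_heckeTLin {p : ℕ} (hp : p.Prime) (hpM : ¬ p ∣ M) (f : CuspForm (Gamma1 M) k)
    (n : ℕ) :
    ModularFormClass.qCoeff (heckeTLin k hp hpM f) n =
      ModularFormClass.qCoeff f (n * p) +
        if p ∣ n then (p : ℂ) ^ (k - 1) *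
          ModularFormClass.qCoeff (diamLin (primeUnit hp hpM) f) (n / p) else 0 := by
  have hF := nice_cuspForm' f
  have hF' := nice_cuspForm' (diamLin (primeUnit hp hpM) f)
  set F : ℍ → ℂ := ⇑f with hFdef
  set F' : ℍ → ℂ := ⇑(diamLin (primeUnit hp hpM) f) with hF'def
  have h1 : ⇑(heckeTLin k hp hpM f) = ModularForm.heckeU k p F +
      (ModularForm.heckeT k p F' + (-1 : ℂ) • ModularForm.heckeU k p F') := by
    rw [coe_heckeTLin, ModularForm.heckeT_eq_heckeU_add]
    ext τ
    simp only [Pi.add_apply, Pi.smul_apply, smul_eq_mul]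
    ring
  rw [h1, Nice.qCoeff_add (hF.heckeU k p) ((hF'.heckeT k p).add ((hF'.heckeU k p).smul _)),
    Nice.qCoeff_add (hF'.heckeT k p) ((hF'.heckeU k p).smul _),
    Nice.qCoeff_smul (hF'.heckeU k p),
    UpperHalfPlane.qCoeff_heckeU hF.per hF.hol hF.bdd k hp.ne_zero,
    UpperHalfPlane.qCoeff_heckeU hF'.per hF'.hol hF'.bdd k hp.ne_zero,
    UpperHalfPlane.qCoeff_heckeT hF'.per hF'.hol hF'.bdd k hp.ne_zero,
    ModularForm.coeffHeckeU_apply, ModularForm.coeffHeckeU_apply, ModularForm.coeffHeckeT_apply]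
  ring

/-- The same in the shape requested by the DS2 blueprint. -/
theorem qCoeff_heckeTLin' {p : ℕ} (hp : p.Prime) (hpM : ¬ p ∣ M) (f : CuspForm (Gamma1 M) k)
    (n : ℕ) :
    ModularFormClass.qCoeff (heckeTLin k hp hpM f) n =
      ModularFormClass.qCoeff f (p * n) + (p : ℂ) ^ (k - 1) *
        (if p ∣ n then ModularFormClass.qCoeff (diamLin (primeUnit hp hpM) f) (n / p) else 0) := by
  rw [qCoeff_heckeTLin, mul_comm n p]
  split_ifs <;> simp

/-- `T_p T_q = T_q T_p` on `S_k(Γ₁(M))`. -/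
theorem heckeTLin_comm {p q : ℕ} (hp : p.Prime) (hpM : ¬ p ∣ M) (hq : q.Prime) (hqM : ¬ q ∣ M) :
    Commute (heckeTLin (M := M) k hp hpM) (heckeTLin k hq hqM) := by
  rcases eq_or_ne p q with rfl | hpq
  · exact Commute.refl _
  have hcop : Nat.Coprime p q := (Nat.coprime_primes hp hq).mpr hpq
  show heckeTLin k hp hpM * heckeTLin k hq hqM = heckeTLin k hq hqM * heckeTLin k hp hpM
  refine LinearMap.ext fun f => cuspForm_ext_qCoeff fun n => ?_
  rw [Module.End.mul_apply, Module.End.mul_apply]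
  -- commute the diamonds through
  have e1 : diamLin (primeUnit hp hpM) (heckeTLin k hq hqM f) =
      heckeTLin k hq hqM (diamLin (primeUnit hp hpM) f) := by
    have := heckeTLin_diamLin_comm (M := M) k hq hqM (primeUnit hp hpM)
    exact (LinearMap.congr_fun this.eq f).symm
  have e2 : diamLin (primeUnit hq hqM) (heckeTLin k hp hpM f) =
      heckeTLin k hp hpM (diamLin (primeUnit hq hqM) f) := by
    have := heckeTLin_diamLin_comm (M := M) k hp hpM (primeUnit hq hqM)
    exact (LinearMap.congr_fun this.eq f).symm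
  have e3 : diamLin (primeUnit hq hqM) (diamLin (primeUnit hp hpM) f) =
      diamLin (primeUnit hp hpM) (diamLin (primeUnit hq hqM) f) :=
    LinearMap.congr_fun (diamLin_comm (k := k) (primeUnit hq hqM) (primeUnit hp hpM)).eq f
  rw [qCoeff_heckeTLin hp hpM, qCoeff_heckeTLin hq hqM, qCoeff_heckeTLin hq hqM,
    qCoeff_heckeTLin hp hpM, e1, e2, qCoeff_heckeTLin hq hqM, qCoeff_heckeTLin hp hpM, e3]
  -- divisibility bookkeeping
  have d1 : q ∣ n * p ↔ q ∣ n := (Nat.Coprime.dvd_mul_right hcop.symm)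
  have d2 : p ∣ n * q ↔ p ∣ n := (Nat.Coprime.dvd_mul_right hcop)
  by_cases hpn : p ∣ n <;> by_cases hqn : q ∣ n
  · obtain ⟨a, rfl⟩ := hpn
    have hqa : q ∣ a := (Nat.Coprime.dvd_mul_left hcop.symm).mp hqn
    obtain ⟨b, rfl⟩ := hqa
    have hp0 := hp.pos
    have hq0 := hq.pos
    have i1 : p * (q * b) * p / q = p * b * p := by
      rw [show p * (q * b) * p = q * (p * b * p) by ring, Nat.mul_div_cancel_left _ hq0]
    have i2 : p * (q * b) / p = q * b := Nat.mul_div_cancel_left _ hp0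
    have i3 : p * (q * b) * q / p = q * b * q := by
      rw [show p * (q * b) * q = p * (q * b * q) by ring, Nat.mul_div_cancel_left _ hp0]
    have i4 : p * (q * b) / q = p * b := by
      rw [show p * (q * b) = q * (p * b) by ring, Nat.mul_div_cancel_left _ hq0]
    have i5 : q * b / q = b := Nat.mul_div_cancel_left _ hq0
    have i6 : p * b / p = b := Nat.mul_div_cancel_left _ hp0
    have j1 : q ∣ p * (q * b) * p := ⟨p * b * p, by ring⟩
    have j2 : p ∣ p * (q * b) := ⟨q * b, rfl⟩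
    have j3 : p ∣ p * (q * b) * q := ⟨q * b * q, by ring⟩
    have j4 : q ∣ p * (q * b) := ⟨p * b, by ring⟩
    have j5 : q ∣ q * b := ⟨b, rfl⟩
    have j6 : p ∣ p * b := ⟨b, rfl⟩
    rw [if_pos j1, if_pos j2, if_pos j3, if_pos j4, i1, i2, i3, i4, if_pos j5, if_pos j6, i5, i6]
    rw [show p * (q * b) * p * q = p * (q * b) * q * p by ring]
    ring
  · -- `p ∣ n`, `q ∤ n`
    obtain ⟨a, rfl⟩ := hpn
    have hp0 := hp.pos
    have hqa : ¬ q ∣ a := fun h => hqn (Dvd.dvd.mul_left h p)
    have i2 : p * a / p = a := Nat.mul_div_cancel_left _ hp0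
    have i3 : p * a * q / p = a * q := by
      rw [show p * a * q = p * (a * q) by ring, Nat.mul_div_cancel_left _ hp0]
    have j1 : ¬ q ∣ p * a * p := fun h => hqn (d1.mp h)
    have j2 : p ∣ p * a := ⟨a, rfl⟩
    have j3 : p ∣ p * a * q := ⟨a * q, by ring⟩
    rw [if_neg j1, if_pos j2, if_pos j3, if_neg hqn, i2, i3, if_neg hqa]
    rw [show p * a * p * q = p * a * q * p by ring]
    ring
  · -- `p ∤ n`, `q ∣ n`
    obtain ⟨b, rfl⟩ := hqn
    have hq0 := hq.pos
    have hpb : ¬ p ∣ b := fun h => hpn (Dvd.dvd.mul_left h q)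
    have i2 : q * b / q = b := Nat.mul_div_cancel_left _ hq0
    have i3 : q * b * p / q = b * p := by
      rw [show q * b * p = q * (b * p) by ring, Nat.mul_div_cancel_left _ hq0]
    have j1 : ¬ p ∣ q * b * q := fun h => hpn (d2.mp h)
    have j2 : q ∣ q * b := ⟨b, rfl⟩
    have j3 : q ∣ q * b * p := ⟨b * p, by ring⟩
    rw [if_pos j3, if_neg hpn, if_neg j1, if_pos j2, i2, i3, if_neg hpb]
    rw [show q * b * p * q = q * b * q * p by ring]
    ring
  · -- `p ∤ n`, `q ∤ n`
    have j1 : ¬ q ∣ n * p := fun h => hqn (d1.mp h)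
    have j2 : ¬ p ∣ n * q := fun h => hpn (d2.mp h)
    rw [if_neg j1, if_neg hpn, if_neg j2, if_neg hqn]
    rw [show n * p * q = n * q * p by ring]

end Fermat.Agent.S48x.Hecke1
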