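import Mathlib
import Fermat.Agent.S48x.Hecke1.QExp

/-!
# P-S48 (H1): the Hecke algebra of `S_k(Γ₁(M))`  (helper62)

`heckeAlgebra1 M k S` is the `ℤ`-subalgebra of `End_ℂ S_k(Γ₁(M))` generated by the `T_ℓ`
(`ℓ ∤ M` prime, `ℓ ∉ S`) and ALL diamond operators `⟨d⟩`, `d ∈ (ℤ/M)ˣ`.  It is commutative
(mirror of `CuspForm.heckeAlgebra` of the Prelude).
-/

set_option autoImplicit false
set_option linter.unusedSectionVars false

noncomputable section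

namespace Fermat.Agent.S48x.Hecke1

open CongruenceSubgroup

variable (M : ℕ) [NeZero M] (k : ℤ) (S : Set ℕ)

/-- The generators: `T_ℓ` for `ℓ ∤ M`, `ℓ ∉ S`, and all diamond operators. -/
def heckeGenerators1 : Set (Module.End ℂ (CuspForm (Gamma1 M) k)) :=
  {T | ∃ (ℓ : ℕ) (hℓ : ℓ.Prime) (hℓM : ¬ ℓ ∣ M), ℓ ∉ S ∧ T = heckeTLin k hℓ hℓM} ∪
    {D | ∃ d : (ZMod M)ˣ, D = diamLin d}

/-- The Hecke algebra (with diamond operators) of `S_k(Γ₁(M))` away from `S`. -/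
def heckeAlgebra1 : Subalgebra ℤ (Module.End ℂ (CuspForm (Gamma1 M) k)) :=
  Algebra.adjoin ℤ (heckeGenerators1 M k S)

variable {M k S}

theorem heckeTLin_mem_heckeGenerators1 {ℓ : ℕ} (hℓ : ℓ.Prime) (hℓM : ¬ ℓ ∣ M) (hℓS : ℓ ∉ S) :
    heckeTLin k hℓ hℓM ∈ heckeGenerators1 M k S :=
  Or.inl ⟨ℓ, hℓ, hℓM, hℓS, rfl⟩

theorem diamLin_mem_heckeGenerators1 (d : (ZMod M)ˣ) :
    diamLin (k := k) d ∈ heckeGenerators1 M k S :=
  Or.inr ⟨d, rfl⟩

theorem heckeTLin_mem_heckeAlgebra1 {ℓ : ℕ} (hℓ : ℓ.Prime) (hℓM : ¬ ℓ ∣ M) (hℓS : ℓ ∉ S) :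
    heckeTLin k hℓ hℓM ∈ heckeAlgebra1 M k S :=
  Algebra.subset_adjoin (heckeTLin_mem_heckeGenerators1 hℓ hℓM hℓS)

theorem diamLin_mem_heckeAlgebra1 (d : (ZMod M)ˣ) :
    diamLin (k := k) d ∈ heckeAlgebra1 M k S :=
  Algebra.subset_adjoin (diamLin_mem_heckeGenerators1 d)

theorem heckeGenerators1_mono {S S' : Set ℕ} (h : S ⊆ S') :
    heckeGenerators1 M k S' ⊆ heckeGenerators1 M k S := by
  rintro T (⟨ℓ, hℓ, hℓM, hℓS, rfl⟩ | ⟨d, rfl⟩)
  · exact heckeTLin_mem_heckeGenerators1 hℓ hℓM fun hS => hℓS (h hS)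
  · exact diamLin_mem_heckeGenerators1 d

theorem heckeAlgebra1_mono {S S' : Set ℕ} (h : S ⊆ S') :
    heckeAlgebra1 M k S' ≤ heckeAlgebra1 M k S :=
  Algebra.adjoin_mono (heckeGenerators1_mono h)

theorem commute_of_mem_heckeGenerators1 {T T' : Module.End ℂ (CuspForm (Gamma1 M) k)}
    (hT : T ∈ heckeGenerators1 M k S) (hT' : T' ∈ heckeGenerators1 M k S) : Commute T T' := by
  rcases hT with ⟨ℓ, hℓ, hℓM, -, rfl⟩ | ⟨d, rfl⟩ <;>
    rcases hT' with ⟨ℓ', hℓ', hℓ'M, -, rfl⟩ | ⟨d', rfl⟩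
  · exact heckeTLin_comm hℓ hℓM hℓ' hℓ'M
  · exact heckeTLin_diamLin_comm k hℓ hℓM d'
  · exact (heckeTLin_diamLin_comm k hℓ' hℓ'M d).symm
  · exact diamLin_comm d d'

variable (M k S)

instance heckeAlgebra1.instIsMulCommutative : IsMulCommutative (heckeAlgebra1 M k S) :=
  Algebra.isMulCommutative_adjoin ℤ fun _ hT _ hT' => commute_of_mem_heckeGenerators1 hT hT'

open scoped IsMulCommutative in
instance heckeAlgebra1.instCommRing : CommRing (heckeAlgebra1 M k S) := inferInstance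

instance heckeAlgebra1.instIsAddTorsionFree : IsAddTorsionFree (heckeAlgebra1 M k S) where
  nsmul_right_injective n hn a b hab := by
    apply Subtype.ext
    have h : (n : ℂ) • (a : Module.End ℂ (CuspForm (Gamma1 M) k)) =
        (n : ℂ) • (b : Module.End ℂ (CuspForm (Gamma1 M) k)) := by
      simp only [Nat.cast_smul_eq_nsmul]
      exact congrArg Subtype.val hab
    exact smul_right_injective _ (Nat.cast_ne_zero.mpr hn) h

variable {M k S}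

/-- `T_ℓ` as an element of the Hecke algebra. -/
def heckeAlgebra1.T {ℓ : ℕ} (hℓ : ℓ.Prime) (hℓM : ¬ ℓ ∣ M) (hℓS : ℓ ∉ S) : heckeAlgebra1 M k S :=
  ⟨heckeTLin k hℓ hℓM, heckeTLin_mem_heckeAlgebra1 hℓ hℓM hℓS⟩

/-- `⟨d⟩` as an element of the Hecke algebra. -/
def heckeAlgebra1.diam (d : (ZMod M)ˣ) : heckeAlgebra1 M k S :=
  ⟨diamLin d, diamLin_mem_heckeAlgebra1 d⟩

@[simp] theorem heckeAlgebra1.coe_T {ℓ : ℕ} (hℓ : ℓ.Prime) (hℓM : ¬ ℓ ∣ M) (hℓS : ℓ ∉ S) :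
    ((heckeAlgebra1.T hℓ hℓM hℓS : heckeAlgebra1 M k S) :
      Module.End ℂ (CuspForm (Gamma1 M) k)) = heckeTLin k hℓ hℓM := rfl

@[simp] theorem heckeAlgebra1.coe_diam (d : (ZMod M)ˣ) :
    ((heckeAlgebra1.diam d : heckeAlgebra1 M k S) :
      Module.End ℂ (CuspForm (Gamma1 M) k)) = diamLin d := rfl

theorem heckeAlgebra1.diam_one : (heckeAlgebra1.diam 1 : heckeAlgebra1 M k S) = 1 :=
  Subtype.ext diamLin_one

theorem heckeAlgebra1.diam_mul (d e : (ZMod M)ˣ) :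
    (heckeAlgebra1.diam (d * e) : heckeAlgebra1 M k S) =
      heckeAlgebra1.diam d * heckeAlgebra1.diam e := by
  apply Subtype.ext
  show diamLin (d * e) = diamLin d * diamLin e
  rw [diamLin_mul, (diamLin_comm d e).eq]
  rfl

end Fermat.Agent.S48x.Hecke1

end
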