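import Mathlib
import Fermat.Agent.S48x.Hecke1.Algebra

/-!
# P-S48 (H1 + DS0-c): the weight one form of S48 is an honest eigenform  (helper62)

For `f ∈ S₁(Γ₁(N))` with the formal Hecke relations of the frozen statement S48:
* `diamLin_eq_eps_smul` : `⟨d⟩ f = ε(d) f`;
* `heckeTLin_eq_qCoeff_smul` : `T_p f = a_p f` for the honest Hecke operator on `Γ₁(N)`;
* `qCoeff_heckeTLin_of_diam` : for any `h` with `⟨p⟩ h = c h`,
  `a_n(T_p h) = a_{np}(h) + [p ∣ n] p^{k-1} c a_{n/p}(h)`.
-/

set_option autoImplicit false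
set_option linter.unusedSectionVars false

namespace Fermat.Agent.S48x.Hecke1

open CongruenceSubgroup Matrix.SpecialLinearGroup UpperHalfPlane
open Fermat.Agent.S48x.Nebentypus
open scoped MatrixGroups ModularForm Manifold

variable {N : ℕ} [NeZero N]

theorem qCoeff_smul_cuspForm {k : ℤ} (c : ℂ) (f : CuspForm (Gamma1 N) k) (n : ℕ) :
    ModularFormClass.qCoeff (⇑(c • f)) n = c * ModularFormClass.qCoeff f n := by
  have h : (⇑(c • f) : ℍ → ℂ) = c • ⇑f := rfl
  rw [h, Nice.qCoeff_smul (nice_cuspForm' f)]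

/-- `q`-expansion of `T_p h` when `h` is an eigenvector of `⟨p⟩`. -/
theorem qCoeff_heckeTLin_of_diam {k : ℤ} {p : ℕ} (hp : p.Prime) (hpN : ¬ p ∣ N)
    (h : CuspForm (Gamma1 N) k) (c : ℂ) (hc : diamLin (primeUnit hp hpN) h = c • h) (n : ℕ) :
    ModularFormClass.qCoeff (heckeTLin k hp hpN h) n =
      ModularFormClass.qCoeff h (n * p) +
        if p ∣ n then (p : ℂ) ^ (k - 1) * (c * ModularFormClass.qCoeff h (n / p)) else 0 := by
  rw [qCoeff_heckeTLin, hc, qCoeff_smul_cuspForm]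

variable (ε : DirichletCharacter ℂ N) (f : CuspForm (Gamma1 N) 1)
  (hT : ∀ p : ℕ, p.Prime → ¬ p ∣ N → ∀ n : ℕ,
      ModularFormClass.qCoeff f (p * n) +
          ε (p : ZMod N) * (if p ∣ n then ModularFormClass.qCoeff f (n / p) else 0) =
        ModularFormClass.qCoeff f p * ModularFormClass.qCoeff f n)

include hT in
/-- The diamond operators act on `f` through `ε`. -/
theorem diamLin_eq_eps_smul (d : (ZMod N)ˣ) : diamLin d f = ε (d : ZMod N) • f := by
  apply DFunLike.coe_injective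
  have h1 := coe_diamLin_eq d f (diamRep_mem d) (diamRep_lowerRight d)
  rw [h1, slash_eq_eps_smul ε f hT _ (diamRep_mem d), diamRep_lowerRight]
  rfl

include hT in
/-- `f` is an eigenvector of the honest Hecke operator `T_p` on `Γ₁(N)` with eigenvalue `a_p`. -/
theorem heckeTLin_eq_qCoeff_smul {p : ℕ} (hp : p.Prime) (hpN : ¬ p ∣ N) :
    heckeTLin 1 hp hpN f = ModularFormClass.qCoeff f p • f := by
  refine cuspForm_ext_qCoeff fun n => ?_
  rw [qCoeff_heckeTLin_of_diam hp hpN f (ε (p : ZMod N))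
    (by rw [diamLin_eq_eps_smul ε f hT, coe_primeUnit]), qCoeff_smul_cuspForm, ← hT p hp hpN n,
    mul_comm n p]
  split_ifs <;> simp

end Fermat.Agent.S48x.Hecke1
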